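import Mathlib.Combinatorics.Enumerative.Catalan.Tree
import Mathlib.Data.List.GetD
import Mathlib.Data.Set.Card
import Mathlib.Tactic.Ring
import Mathlib.Tactic.Linarith

/-!
# The sequences of diagonals of friezes and binary trees

A tree inserts the sum of two neighbours between them.  Every sequence of integers `≥ a + b` in
which each entry divides the sum of its neighbours, between `a ≥ 1` and `b`, arises from exactly one
tree: delete the first maximum.
-/

set_option autoImplicit false

open BinaryTree (nil node numNodes treesOfNumNodesEq)

namespace FA.Frieze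

/-- Repeated insertion of sums along a tree. -/
def insertSums : BinaryTree Unit → ℕ → ℕ → List ℕ
  | .nil, _, _ => []
  | .node _ l r, a, b => insertSums l a (a + b) ++ (a + b) :: insertSums r (a + b) b

/-- Every entry is positive and divides the sum of its neighbours, between `a` and `b`. -/
def DivChain : ℕ → ℕ → List ℕ → Prop
  | _, _, [] => True
  | a, b, x :: w => 0 < x ∧ x ∣ a + w.headD b ∧ DivChain x b w

theorem headD_append_eq (u v : List ℕ) (b : ℕ) : (u ++ v).headD b = u.headD (v.headD b) := by
  cases u <;> rfl

theorem getLastD_append_eq (u v : List ℕ) (a : ℕ) :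
    (u ++ v).getLastD a = v.getLastD (u.getLastD a) := by
  induction u generalizing a with
  | nil => rfl
  | cons x u ih => simpa only [List.cons_append, List.getLastD_cons] using ih x

theorem divChain_append (u v : List ℕ) (a b : ℕ) :
    DivChain a b (u ++ v) ↔ DivChain a (v.headD b) u ∧ DivChain (u.getLastD a) b v := by
  induction u generalizing a with
  | nil => simp [DivChain]
  | cons x u ih =>
    simp only [List.cons_append, DivChain, headD_append_eq, ih, List.getLastD_cons, and_assoc]

theorem divChain_replace_right {u : List ℕ} {a x y : ℕ} (h : DivChain a x u)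
    (e : x = u.getLastD a + y) : DivChain a y u := by
  induction u generalizing a with
  | nil => trivial
  | cons z u ih =>
    obtain ⟨h₁, h₂, h₃⟩ := h
    refine ⟨h₁, ?_, ih h₃ (by rw [List.getLastD_cons] at e; exact e)⟩
    cases u with
    | nil =>
      subst e
      simp only [List.headD_nil, List.getLastD_cons, List.getLastD_nil] at h₂ ⊢
      rw [show a + (z + y) = z + (a + y) by ring] at h₂
      exact (Nat.dvd_add_right dvd_rfl).1 h₂
    | cons z' u => exact h₂

theorem divChain_replace_left {v : List ℕ} {b x y : ℕ} (h : DivChain x b v)
    (e : x = y + v.headD b) : DivChain y b v := by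
  cases v with
  | nil => trivial
  | cons z v =>
    obtain ⟨h₁, h₂, h₃⟩ := h
    refine ⟨h₁, ?_, h₃⟩
    subst e
    simp only [List.headD_cons] at h₂
    rw [show y + z + v.headD b = z + (y + v.headD b) by ring] at h₂
    exact (Nat.dvd_add_right dvd_rfl).1 h₂

theorem le_of_mem_insertSums {t : BinaryTree Unit} {a b x : ℕ} (h : x ∈ insertSums t a b) :
    a + b ≤ x := by
  induction t generalizing a b with
  | nil => simp [insertSums] at h
  | node _ l r ihl ihr =>
    simp only [insertSums, List.mem_append, List.mem_cons] at h
    rcases h with h | rfl | h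
    · have := ihl h; omega
    · exact le_rfl
    · have := ihr h; omega

theorem headD_insertSums (t : BinaryTree Unit) (a b : ℕ) :
    ∃ k, (insertSums t a b).headD b = k * a + b := by
  induction t generalizing a b with
  | nil => exact ⟨0, by simp [insertSums]⟩
  | node _ l r ihl _ =>
    obtain ⟨k, hk⟩ := ihl a (a + b)
    exact ⟨k + 1, by rw [insertSums, headD_append_eq, List.headD_cons, hk]; ring⟩

theorem getLastD_insertSums (t : BinaryTree Unit) (a b : ℕ) :
    ∃ k, (insertSums t a b).getLastD a = k * b + a := by
  induction t generalizing a b with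
  | nil => exact ⟨0, by simp [insertSums]⟩
  | node _ l r _ ihr =>
    obtain ⟨k, hk⟩ := ihr (a + b) b
    exact ⟨k + 1, by rw [insertSums, getLastD_append_eq, List.getLastD_cons, hk]; ring⟩

theorem length_insertSums (t : BinaryTree Unit) (a b : ℕ) :
    (insertSums t a b).length = numNodes t := by
  induction t generalizing a b with
  | nil => simp [insertSums, numNodes]
  | node _ l r ihl ihr => simp [insertSums, numNodes, ihl, ihr]; omega

theorem divChain_insertSums (t : BinaryTree Unit) {a b : ℕ} (ha : 0 < a) :
    DivChain a b (insertSums t a b) := by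
  induction t generalizing a b with
  | nil => simp [insertSums, DivChain]
  | node _ l r ihl ihr =>
    obtain ⟨k, hk⟩ := getLastD_insertSums l a (a + b)
    obtain ⟨m, hm⟩ := headD_insertSums r (a + b) b
    rw [insertSums, divChain_append]
    exact ⟨ihl ha, by omega, ⟨k + m + 1, by rw [hk, hm]; ring⟩, ihr (by omega)⟩

theorem insertSums_injective {t t' : BinaryTree Unit} {a b : ℕ} (ha : 0 < a)
    (h : insertSums t a b = insertSums t' a b) : t = t' := by
  induction t generalizing t' a b with
  | nil =>
    cases t' with
    | nil => rfl
    | node _ l r => simp [insertSums] at h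
  | node u l r ihl ihr =>
    cases t' with
    | nil => simp [insertSums] at h
    | node u' l' r' =>
      have hmem : ∀ s : BinaryTree Unit, a + b ∉ insertSums s a (a + b) := fun s hs => by
        have := le_of_mem_insertSums hs; omega
      simp only [insertSums] at h
      obtain ⟨hl, -, hr⟩ : insertSums l a (a + b) = insertSums l' a (a + b) ∧ a + b = a + b ∧
          insertSums r (a + b) b = insertSums r' (a + b) b := by
        rcases List.append_eq_append_iff.1 h with ⟨c, h₁, h₂⟩ | ⟨c, h₁, h₂⟩
        · cases c with
          | nil => simp_all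
          | cons z c =>
            rw [List.cons_append, List.cons.injEq] at h₂
            exact absurd (h₁ ▸ by simp [← h₂.1]) (hmem l')
        · cases c with
          | nil => simp_all
          | cons z c =>
            rw [List.cons_append, List.cons.injEq] at h₂
            exact absurd (h₁ ▸ by simp [← h₂.1]) (hmem l)
      rw [ihl ha hl, ihr (by omega) hr]

theorem insertSums_insert (t : BinaryTree Unit) (a b : ℕ) (u v : List ℕ)
    (h : insertSums t a b = u ++ v) :
    ∃ t', insertSums t' a b = u ++ (u.getLastD a + v.headD b) :: v := by
  induction t generalizing a b u v with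
  | nil =>
    simp only [insertSums, List.nil_eq, List.append_eq_nil_iff] at h
    obtain ⟨rfl, rfl⟩ := h
    exact ⟨.node () .nil .nil, by simp [insertSums]⟩
  | node x l r ihl ihr =>
    simp only [insertSums] at h
    rcases List.append_eq_append_iff.1 h with ⟨c, hu, hR⟩ | ⟨c, hL, hv⟩
    · cases c with
      | nil =>
        obtain ⟨l', hl'⟩ := ihl a (a + b) (insertSums l a (a + b)) [] (by simp)
        refine ⟨.node x l' r, ?_⟩
        simp only [List.nil_append, List.append_nil] at hu hR
        subst hu hR
        simp [insertSums, hl']
      | cons z c =>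
        rw [List.cons_append, List.cons.injEq] at hR
        obtain ⟨rfl, hR⟩ := hR
        obtain ⟨r', hr'⟩ := ihr (a + b) b c v hR
        refine ⟨.node x l r', ?_⟩
        subst hu
        rw [insertSums, hr', getLastD_append_eq, List.getLastD_cons, List.append_assoc,
          List.cons_append]
    · obtain ⟨l', hl'⟩ := ihl a (a + b) u c hL
      refine ⟨.node x l' r, ?_⟩
      subst hv
      simp [insertSums, hl']

theorem exists_tree : ∀ (m : ℕ) (a b : ℕ) (w : List ℕ), w.length = m → 0 < a → DivChain a b w →
    (∀ x ∈ w, a + b ≤ x) → ∃ t, insertSums t a b = w := by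
  intro m
  induction m with
  | zero => exact fun a b w hw _ _ _ => ⟨.nil, by simp [insertSums, List.length_eq_zero_iff.1 hw]⟩
  | succ m ih =>
    intro a b w hw ha hc hge
    obtain ⟨M, hM, hmax⟩ : ∃ M ∈ w, ∀ x ∈ w, x ≤ M :=
      ⟨w.toFinset.max' ⟨w.head (by intro e; simp [e] at hw), by simp⟩,
        List.mem_toFinset.1 (Finset.max'_mem _ _),
        fun x hx => Finset.le_max' _ _ (List.mem_toFinset.2 hx)⟩
    by_cases hMa : M = a
    · cases w with
      | nil => simp at hw
      | cons x v =>
        have hx : x = a := le_antisymm (hMa ▸ hmax x (by simp))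
          (le_trans (Nat.le_add_right a b) (hge x (by simp)))
        have hb : b = 0 := by have := hge x (by simp); omega
        subst hx hb
        obtain ⟨r, hr⟩ := ih x 0 v (by simpa using hw) ha hc.2.2
          fun y hy => hge y (List.mem_cons_of_mem _ hy)
        exact ⟨.node () .nil r, by simp [insertSums, hr]⟩
    obtain ⟨u, v, rfl, hu⟩ := List.eq_append_cons_of_mem hM
    have hMge := hge M hM
    rw [divChain_append, List.headD_cons] at hc
    obtain ⟨hcu, hM0, hdvd, hcv⟩ := hc
    set p := u.getLastD a with hp
    set q := v.headD b with hq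
    have hpM : p < M := by
      rcases List.eq_nil_or_concat u with rfl | ⟨u', z, rfl⟩
      · simp [hp]; omega
      · have : z ≠ M := fun e => hu (by simp [e])
        have := hmax z (by simp)
        simp [hp]; omega
    have hp0 : 0 < p := by
      rcases List.eq_nil_or_concat u with rfl | ⟨u', z, rfl⟩
      · simpa [hp] using ha
      · have := hge z (by simp)
        simp [hp]; omega
    have hqM : q ≤ M := by
      cases v with
      | nil => simp [hq]; omega
      | cons z v => exact hmax z (by simp)
    have heq : M = p + q := by
      obtain ⟨c, hc'⟩ := hdvd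
      rcases c with _ | _ | c
      · omega
      · omega
      · nlinarith
    obtain ⟨t, ht⟩ := ih a b (u ++ v) (by simp at hw ⊢; omega) ha
      ((divChain_append u v a b).2 ⟨divChain_replace_right hcu heq, divChain_replace_left hcv heq⟩)
      fun x hx => hge x (by simp only [List.mem_append, List.mem_cons] at hx ⊢; tauto)
    obtain ⟨t', ht'⟩ := insertSums_insert t a b u v ht
    exact ⟨t', by rw [ht', heq]⟩

theorem pos_of_mem_divChain {w : List ℕ} {a b x : ℕ} (h : DivChain a b w) (hx : x ∈ w) : 0 < x := by
  induction w generalizing a with
  | nil => simp at hx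
  | cons z w ih =>
    rcases List.mem_cons.1 hx with rfl | hx
    · exact h.1
    · exact ih h.2.2 hx

/-- The diagonals. -/
def diagonals (n : ℕ) : Set (List ℕ) := {w | w.length = n ∧ DivChain 1 0 w}

theorem diagonals_eq (n : ℕ) :
    diagonals n = (fun t => insertSums t 1 0) '' (treesOfNumNodesEq n : Set (BinaryTree Unit)) := by
  ext w
  simp only [diagonals, Set.mem_ofPred_eq, Set.mem_image, Finset.mem_coe,
    BinaryTree.mem_treesOfNumNodesEq]
  constructor
  · rintro ⟨hlen, hc⟩
    obtain ⟨t, ht⟩ := exists_tree _ 1 0 w rfl one_pos hc fun x hx => pos_of_mem_divChain hc hx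
    exact ⟨t, by rw [← length_insertSums t 1 0, ht, hlen], ht⟩
  · rintro ⟨t, ht, rfl⟩
    exact ⟨(length_insertSums t 1 0).trans ht, divChain_insertSums t one_pos⟩

theorem card_diagonals (n : ℕ) : (diagonals n).ncard = catalan n := by
  rw [diagonals_eq, Set.InjOn.ncard_image (fun t _ t' _ h => insertSums_injective one_pos h),
    Set.ncard_coe_finset, BinaryTree.treesOfNumNodesEq_card_eq_catalan]

theorem diagonals_finite (n : ℕ) : (diagonals n).Finite := by
  rw [diagonals_eq]; exact (Finset.finite_toSet _).image _

theorem getLastD_diagonal {n : ℕ} {w : List ℕ} (hw : w ∈ diagonals n) : w.getLastD 1 = 1 := by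
  rw [diagonals_eq] at hw
  obtain ⟨t, -, rfl⟩ := hw
  obtain ⟨k, hk⟩ := getLastD_insertSums t 1 0
  simpa using hk

theorem exists_sum_entry : ∀ (t : BinaryTree Unit) (a b : ℕ), 0 < numNodes t →
    ∃ u v : List ℕ, insertSums t a b = u ++ (u.getLastD a + v.headD b) :: v := by
  intro t
  induction t with
  | nil => simp [numNodes]
  | node x l r ihl ihr =>
    intro a b _
    by_cases hl : 0 < numNodes l
    · obtain ⟨u, v, e⟩ := ihl a (a + b) hl
      exact ⟨u, v ++ (a + b) :: insertSums r (a + b) b, by simp [insertSums, e]⟩
    by_cases hr : 0 < numNodes r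
    · obtain ⟨u, v, e⟩ := ihr (a + b) b hr
      exact ⟨insertSums l a (a + b) ++ (a + b) :: u, v, by
        rw [insertSums, e, getLastD_append_eq, List.getLastD_cons, List.append_assoc,
          List.cons_append]⟩
    have el := List.eq_nil_of_length_eq_zero
      ((length_insertSums l a (a + b)).trans (by omega))
    have er := List.eq_nil_of_length_eq_zero
      ((length_insertSums r (a + b) b).trans (by omega))
    exact ⟨[], [], by simp [insertSums, el, er]⟩

end FA.Frieze
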