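import Fermat.Agent.Frieze.Rows

/-!
# Glide symmetry

Each entry is a two by two determinant in the rows `0` and `1`.
-/

set_option autoImplicit false

namespace FA.Frieze

variable {n : ℕ} {F : ℤ → ℤ → ℤ}

/-- Row `1`, with `-1` before it. -/
def rowOne (F : ℤ → ℤ → ℤ) (j : ℤ) : ℤ := if j = 0 then -1 else F 1 j

/-- The determinant of rows `0` and `1` at two places. -/
def det₂ (F : ℤ → ℤ → ℤ) (i j : ℤ) : ℤ := F 0 i * rowOne F j - F 0 j * rowOne F i

theorem det₂_succ (hF : IsFrieze n F) {i : ℤ} (h₀ : 0 ≤ i) (h₁ : i < n + 3) :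
    det₂ F i (i + 1) = 1 := by
  rcases eq_or_lt_of_le h₀ with rfl | h
  · simp [det₂, rowOne, hF.out 0 0 (Or.inl le_rfl), show F 0 1 = 1 by simpa using hF.bottom 0]
  · have := hF.diamond 0 i h (by omega)
    rw [zero_add] at this
    simp only [det₂, rowOne, if_neg h.ne', if_neg (by omega : i + 1 ≠ 0)]
    linear_combination this

theorem entry_eq_det₂ (hF : IsFrieze n F) (i : ℕ) :
    ∀ k : ℕ, i + k ≤ n + 3 → F i (i + k) = det₂ F i (i + k) := by
  induction i with
  | zero =>
    intro k _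
    simp [det₂, rowOne, hF.out 0 0 (Or.inl le_rfl)]
  | succ i ih =>
    intro k
    induction k with
    | zero =>
      intro _
      simp [det₂, hF.out ((i : ℤ) + 1) ((i : ℤ) + 1) (Or.inl le_rfl)]
    | succ k ihk =>
      intro hk
      have d := hF.diamond i ((i : ℤ) + (k + 1 : ℕ)) (by omega) (by omega)
      have e₁ := ih (k + 1) (by omega)
      have e₂ := ih (k + 2) (by omega)
      have e₃ := ihk (by omega)
      have c₁ := det₂_succ hF (i := (i : ℤ)) (by omega) (by omega)
      have c₂ := det₂_succ hF (i := (i : ℤ) + (k + 1 : ℕ)) (by omega) (by omega)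
      push_cast at d e₁ e₂ e₃ c₂ ⊢
      rw [show (i : ℤ) + 1 + (k : ℤ) = i + ((k : ℤ) + 1) by ring] at e₃
      rw [show (i : ℤ) + ((k : ℤ) + 2) = i + ((k : ℤ) + 1) + 1 by ring] at e₂
      rw [show (i : ℤ) + 1 + ((k : ℤ) + 1) = i + ((k : ℤ) + 1) + 1 by ring]
      refine mul_left_cancel₀ (hF.pos i (i + ((k : ℤ) + 1)) (by omega) (by omega)).ne' ?_
      rw [e₁, e₂, e₃] at d
      rw [e₁]
      simp only [det₂] at c₁ c₂ d ⊢
      linear_combination d - (F 0 (i + ((k : ℤ) + 1)) * rowOne F (i + ((k : ℤ) + 1) + 1) -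
        F 0 (i + ((k : ℤ) + 1) + 1) * rowOne F (i + ((k : ℤ) + 1))) * c₁ - c₂

theorem last_column (hF : IsFrieze n F) {j : ℤ} (h₀ : 0 ≤ j) (h₁ : j ≤ n + 3) :
    F j (n + 3) = F 0 j := by
  lift j to ℕ using h₀
  have h := entry_eq_det₂ hF j (n + 3 - j) (by omega)
  rw [show (j : ℤ) + ((n + 3 - j : ℕ) : ℤ) = n + 3 by omega] at h
  have top : F 1 ((n : ℤ) + 3) = 1 := by
    exact (congrArg (F 1) (by ring)).trans (hF.top 1)
  rw [h, det₂, hF.out 0 (n + 3) (Or.inr (by omega))]
  simp [rowOne, top, show (n : ℤ) + 3 ≠ 0 by omega]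

/-- The glide of a frieze. -/
def glide (n : ℕ) (F : ℤ → ℤ → ℤ) (i j : ℤ) : ℤ :=
  if i ≤ j ∧ j ≤ i + n + 3 then F j (i + n + 3) else 0

theorem isFrieze_glide (hF : IsFrieze n F) : IsFrieze n (glide n F) := by
  constructor
  · intro i j h
    rw [glide]
    split_ifs with hr
    · rcases h with h | h
      · exact hF.out _ _ (Or.inr (by omega))
      · exact hF.out _ _ (Or.inl (by omega))
    · rfl
  · intro i
    rw [glide, if_pos (by omega)]
    exact (congrArg (F (i + 1)) (by ring)).trans (hF.top (i + 1))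
  · intro i
    rw [glide, if_pos (by omega)]
    exact (congrArg (F (i + n + 2)) (by ring)).trans (hF.bottom (i + n + 2))
  · intro i j h₁ h₂
    rw [glide, if_pos (by omega)]
    exact hF.pos _ _ (by omega) (by omega)
  · intro i j h₁ h₂
    have d := hF.diamond j (i + n + 3) (by omega) (by omega)
    simp only [glide]
    rw [if_pos (by omega), if_pos (by omega), if_pos (by omega), if_pos (by omega)]
    rw [show i + 1 + (n : ℤ) + 3 = i + n + 3 + 1 by ring]
    linear_combination d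

theorem glide_eq (hF : IsFrieze n F) : glide n F = F := by
  conv_rhs => rw [eq_friezeOfRow hF]
  rw [eq_friezeOfRow (isFrieze_glide hF)]
  congr 1
  refine Subtype.ext (funext fun k => ?_)
  simp only [rowOf, glide, zero_add]
  split_ifs with h
  · exact last_column hF h.1 h.2
  · exact (hF.out _ _ (Or.inr (by omega))).symm

theorem entry_glide (hF : IsFrieze n F) {i j : ℤ} (h₁ : i ≤ j) (h₂ : j ≤ i + n + 3) :
    F i j = F j (i + n + 3) := by
  conv_lhs => rw [← glide_eq hF, glide, if_pos ⟨h₁, h₂⟩]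

theorem periodic (hF : IsFrieze n F) (i j : ℤ) : F (i + (n + 3)) (j + (n + 3)) = F i j := by
  by_cases h : i ≤ j ∧ j ≤ i + n + 3
  · rw [entry_glide hF h.1 h.2, entry_glide hF (i := j) (j := i + n + 3) (by omega) (by omega)]
    congr 1 <;> ring
  · rw [hF.out i j (by omega), hF.out _ _ (by omega)]

theorem getD_split (u v : List ℕ) (a b x : ℕ) :
    (a :: (u ++ x :: v ++ [b])).getD u.length 0 = u.getLastD a ∧
      (a :: (u ++ x :: v ++ [b])).getD (u.length + 1) 0 = x ∧
      (a :: (u ++ x :: v ++ [b])).getD (u.length + 2) 0 = v.headD b := by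
  induction u generalizing a with
  | nil => cases v <;> simp
  | cons z u ih => simpa only [List.cons_append, List.length_cons, List.getD_cons_succ,
      List.getLastD_cons] using ih z

theorem exists_one (hF : IsFrieze n F) : ∃ i, F i (i + 2) = 1 := by
  set f := rowOf hF 0 with hf
  have hw := toList_mem f.2
  rw [diagonals_eq] at hw
  obtain ⟨t, ht, hw⟩ := hw
  rw [Finset.mem_coe, BinaryTree.mem_treesOfNumNodesEq] at ht
  obtain ⟨u, v, he⟩ := exists_sum_entry t 1 0 (by omega)
  simp only at hw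
  rw [he] at hw
  have hlen := congrArg List.length hw
  simp [toList] at hlen
  obtain ⟨g₁, g₂, g₃⟩ := getD_split u v 1 0 (u.getLastD 1 + v.headD 0)
  rw [hw] at g₁ g₂ g₃
  have v₁ := getD_toList f.2 u.length
  have v₂ := getD_toList f.2 (u.length + 1)
  have v₃ := getD_toList f.2 (u.length + 2)
  rw [g₁] at v₁
  rw [g₂, Nat.cast_add] at v₂
  rw [g₃] at v₃
  rw [v₁, v₃] at v₂
  simp only [hf, rowOf, zero_add] at v₂
  push_cast at v₂
  refine ⟨u.length + 1, ?_⟩
  have e := entry_eq_det₂ hF (u.length + 1) 2 (by omega)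
  push_cast at e
  have c₁ := det₂_succ hF (i := (u.length : ℤ) + 1) (by omega) (by omega)
  have c₂ := det₂_succ hF (i := (u.length : ℤ) + 1 + 1) (by omega) (by omega)
  rw [e]
  refine mul_left_cancel₀ (hF.pos 0 ((u.length : ℤ) + 1 + 1) (by omega) (by omega)).ne' ?_
  simp only [det₂] at c₁ c₂ ⊢
  rw [show (u.length : ℤ) + 1 + 2 = u.length + 1 + 1 + 1 by ring] at *
  rw [show (u.length : ℤ) + 2 + 1 = u.length + 1 + 1 + 1 by ring] at v₂
  linear_combination v₂ + F 0 ((u.length : ℤ) + 1) * c₂ + F 0 ((u.length : ℤ) + 1 + 1 + 1) * c₁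

end FA.Frieze
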