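import Fermat.Agent.Frieze.Diagonal
import Mathlib.Algebra.Group.End
import Mathlib.Data.Fintype.EquivFin
import Mathlib.Data.Int.GCD
import Mathlib.RingTheory.Coprime.Lemmas
import Mathlib.Tactic.LinearCombination

/-!
# Friezes and their rows

A row determines the next one, and this step is a permutation of the finite set of possible rows;
so a frieze is the orbit of its row `0`.
-/

set_option autoImplicit false

namespace FA.Frieze

/-- An integral frieze of width `n`. -/
structure IsFrieze (n : ℕ) (F : ℤ → ℤ → ℤ) : Prop where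
  out : ∀ i j : ℤ, j ≤ i ∨ i + n + 3 ≤ j → F i j = 0
  bottom : ∀ i : ℤ, F i (i + 1) = 1
  top : ∀ i : ℤ, F i (i + n + 2) = 1
  pos : ∀ i j : ℤ, i < j → j < i + n + 3 → 0 < F i j
  diamond : ∀ i j : ℤ, i < j → j < i + n + 3 →
    F i j * F (i + 1) (j + 1) - F (i + 1) j * F i (j + 1) = 1

/-- What a row of a frieze satisfies. -/
structure IsRow (n : ℕ) (f : ℕ → ℤ) : Prop where
  zero : f 0 = 0
  one : f 1 = 1
  top : f (n + 2) = 1
  out : ∀ k, n + 3 ≤ k → f k = 0
  pos : ∀ k, 1 ≤ k → k ≤ n + 2 → 0 < f k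
  dvd : ∀ k, k ≤ n + 1 → f (k + 1) ∣ f k + f (k + 2)

/-- The diamond relations between a row and the next. -/
def IsNext (n : ℕ) (f g : ℕ → ℤ) : Prop :=
  ∀ k, k ≤ n + 1 → f (k + 1) * g (k + 1) - g k * f (k + 2) = 1

theorem divChain_iff_getD (w : List ℕ) (a b : ℕ) :
    DivChain a b w ↔ ∀ k < w.length, 0 < (a :: (w ++ [b])).getD (k + 1) 0 ∧
      (a :: (w ++ [b])).getD (k + 1) 0 ∣
        (a :: (w ++ [b])).getD k 0 + (a :: (w ++ [b])).getD (k + 2) 0 := by
  induction w generalizing a with
  | nil => simp [DivChain]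
  | cons x w ih =>
    rw [DivChain, ih, List.length_cons, Nat.forall_lt_succ_left, ← and_assoc]
    refine and_congr ?_ Iff.rfl
    cases w <;> simp

/-- The list of a row. -/
def toList (n : ℕ) (f : ℕ → ℤ) : List ℕ := List.ofFn fun k : Fin (n + 1) => (f (k + 2)).toNat

/-- The row of a list. -/
def ofList (w : List ℕ) : ℕ → ℤ
  | 0 => 0
  | k + 1 => ((1 :: (w ++ [0])).getD k 0 : ℕ)

theorem getElem_toList (n : ℕ) (f : ℕ → ℤ) {k : ℕ} (h : k < (toList n f).length) :
    (toList n f)[k] = (f (k + 2)).toNat :=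
  List.getElem_ofFn h

theorem getD_toList {n : ℕ} {f : ℕ → ℤ} (hf : IsRow n f) (k : ℕ) :
    (((1 :: (toList n f ++ [0])).getD k 0 : ℕ) : ℤ) = f (k + 1) := by
  cases k with
  | zero => simp [hf.one]
  | succ k =>
    rw [List.getD_cons_succ]
    rcases lt_trichotomy k (n + 1) with h | rfl | h
    · rw [List.getD_append _ _ _ _ (by simpa [toList] using h), List.getD_eq_getElem _ _
        (by simpa [toList] using h)]
      rw [getElem_toList, Int.toNat_of_nonneg (hf.pos (k + 2) (by omega) (by omega)).le]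
    · rw [List.getD_append_right _ _ _ _ (by simp [toList])]
      simp [toList, hf.out (n + 3) le_rfl]
    · rw [List.getD_eq_default _ _ (by simp [toList]; omega), hf.out (k + 1 + 1) (by omega)]
      rfl

theorem toList_mem {n : ℕ} {f : ℕ → ℤ} (hf : IsRow n f) : toList n f ∈ diagonals (n + 1) := by
  refine ⟨by simp [toList], (divChain_iff_getD _ _ _).2 fun k hk => ?_⟩
  simp only [toList, List.length_ofFn] at hk
  rw [← Int.natCast_pos, ← Int.natCast_dvd_natCast, Nat.cast_add, getD_toList hf, getD_toList hf,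
    getD_toList hf]
  exact ⟨hf.pos _ (by omega) (by omega), hf.dvd (k + 1) (by omega)⟩

theorem ofList_toList {n : ℕ} {f : ℕ → ℤ} (hf : IsRow n f) : ofList (toList n f) = f := by
  funext k
  cases k with
  | zero => exact hf.zero.symm
  | succ k => exact getD_toList hf k

theorem isRow_ofList {n : ℕ} {w : List ℕ} (hw : w ∈ diagonals (n + 1)) : IsRow n (ofList w) := by
  obtain ⟨hlen, hc⟩ := hw
  have hc' := (divChain_iff_getD _ _ _).1 hc
  have hlast : (1 :: (w ++ [0])).getD (n + 1) 0 = 1 := by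
    have h := getLastD_diagonal (n := n + 1) ⟨hlen, hc⟩
    rcases List.eq_nil_or_concat w with rfl | ⟨u, z, rfl⟩
    · simp at hlen
    · simp only [List.concat_eq_append, List.length_append, List.length_singleton] at hlen
      simp only [List.concat_eq_append, getLastD_append_eq, List.getLastD_cons,
        List.getLastD_nil] at h
      subst h
      simp [show u.length = n by omega]
  refine ⟨rfl, by simp [ofList], ?_, fun k hk => ?_, fun k h₁ h₂ => ?_, fun k hk => ?_⟩
  · simp only [ofList, hlast, Nat.cast_one]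
  · obtain ⟨k, rfl⟩ : ∃ j, k = j + 1 := ⟨k - 1, by omega⟩
    rcases eq_or_lt_of_le (show n + 2 ≤ k by omega) with rfl | h
    · simp [ofList, hlen]
    · simp only [ofList, List.getD_eq_default _ _
        (show (1 :: (w ++ [0])).length ≤ k by simp [hlen]; omega), Nat.cast_zero]
  · obtain ⟨k, rfl⟩ : ∃ j, k = j + 1 := ⟨k - 1, by omega⟩
    cases k with
    | zero => simp [ofList]
    | succ k => exact Int.natCast_pos.2 (hc' k (by omega)).1
  · cases k with
    | zero => simp [ofList]
    | succ k =>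
      simp only [ofList]
      exact_mod_cast (hc' k (by omega)).2

theorem toList_ofList {n : ℕ} {w : List ℕ} (hw : w ∈ diagonals (n + 1)) :
    toList n (ofList w) = w := by
  refine List.ext_getElem (by simp [toList, hw.1]) fun k h₁ h₂ => ?_
  rw [getElem_toList]
  show (((1 :: (w ++ [0])).getD (k + 1) 0 : ℕ) : ℤ).toNat = w[k]
  rw [Int.toNat_natCast, List.getD_cons_succ, List.getD_append _ _ _ _ h₂,
    List.getD_eq_getElem _ _ h₂]

/-- The rows. -/
abbrev Row (n : ℕ) := {f : ℕ → ℤ // IsRow n f}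

/-- Rows are the diagonal sequences. -/
def rowEquiv (n : ℕ) : Row n ≃ diagonals (n + 1) where
  toFun f := ⟨toList n f.1, toList_mem f.2⟩
  invFun w := ⟨ofList w.1, isRow_ofList w.2⟩
  left_inv f := Subtype.ext (ofList_toList f.2)
  right_inv w := Subtype.ext (toList_ofList w.2)

instance finite_row (n : ℕ) : Finite (Row n) :=
  haveI := (diagonals_finite (n + 1)).to_subtype
  Finite.of_equiv _ (rowEquiv n).symm

/-- The candidate for the next row. -/
def nextAux (f : ℕ → ℤ) : ℕ → ℤ
  | 0 => 0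
  | 1 => 1
  | k + 2 => (f (k + 1) + f (k + 3)) / f (k + 2) * nextAux f (k + 1) - nextAux f k

theorem exists_next {n : ℕ} {f : ℕ → ℤ} (hf : IsRow n f) : ∃ g, IsRow n g ∧ IsNext n f g := by
  have hadj : ∀ k, k ≤ n + 1 → f (k + 1) * nextAux f (k + 1) - nextAux f k * f (k + 2) = 1 := by
    intro k
    induction k with
    | zero => intro _; simp [nextAux, hf.one]
    | succ k ih =>
      intro hk
      have e := Int.mul_ediv_cancel' (hf.dvd (k + 1) (by omega))
      show f (k + 2) * nextAux f (k + 2) - nextAux f (k + 1) * f (k + 3) = 1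
      rw [nextAux]
      linear_combination ih (by omega) + nextAux f (k + 1) * e
  have hpos : ∀ k, 1 ≤ k → k ≤ n + 2 → 0 < nextAux f k := by
    intro k
    induction k with
    | zero => omega
    | succ k ih =>
      intro _ hk
      rcases Nat.eq_zero_or_pos k with rfl | hk0
      · simp [nextAux]
      have hp : 0 ≤ nextAux f k * f (k + 2) := by
        refine mul_nonneg (ih hk0 (by omega)).le ?_
        rcases le_or_gt (k + 2) (n + 2) with h | h
        · exact (hf.pos _ (by omega) h).le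
        · exact (hf.out _ h).ge
      exact pos_of_mul_pos_right
        (by linarith [hadj k (by omega)] : 0 < f (k + 1) * nextAux f (k + 1))
        (hf.pos _ (by omega) hk).le
  have htop : nextAux f (n + 2) = 1 := by
    have := hadj (n + 1) le_rfl
    rw [show n + 1 + 2 = n + 3 by ring, hf.out (n + 3) le_rfl, show n + 1 + 1 = n + 2 by ring,
      hf.top] at this
    linarith
  set g : ℕ → ℤ := fun k => if k ≤ n + 2 then nextAux f k else 0 with hg
  have hgk : ∀ k, k ≤ n + 2 → g k = nextAux f k := fun k hk => if_pos hk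
  refine ⟨g, ⟨by simp [hg, nextAux], by simp [hg, nextAux], (hgk _ le_rfl).trans htop,
    fun k hk => if_neg (by omega), fun k h₁ h₂ => by rw [hgk k h₂]; exact hpos k h₁ h₂,
    fun k hk => ?_⟩, fun k hk => by rw [hgk k (by omega), hgk (k + 1) (by omega)]; exact hadj k hk⟩
  rcases eq_or_lt_of_le hk with rfl | hk'
  · rw [hgk _ (by omega), htop]; exact one_dvd _
  · rw [hgk k (by omega), hgk (k + 1) (by omega), hgk (k + 2) (by omega), nextAux]
    exact ⟨(f (k + 1) + f (k + 3)) / f (k + 2), by ring⟩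

theorem next_unique {n : ℕ} {f g g' : ℕ → ℤ} (hf : IsRow n f) (hg : IsRow n g) (hg' : IsRow n g')
    (h : IsNext n f g) (h' : IsNext n f g') : g = g' := by
  funext k
  induction k with
  | zero => rw [hg.zero, hg'.zero]
  | succ k ih =>
    by_cases hk : k ≤ n + 1
    · refine mul_left_cancel₀ (hf.pos (k + 1) (by omega) (by omega)).ne' ?_
      linear_combination h k hk - h' k hk + f (k + 2) * ih
    · rw [hg.out _ (by omega), hg'.out _ (by omega)]

theorem prev_unique {n : ℕ} {f f' g : ℕ → ℤ} (hf : IsRow n f) (hf' : IsRow n f') (hg : IsRow n g)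
    (h : IsNext n f g) (h' : IsNext n f' g) : f = f' := by
  have key : ∀ m k, k + m = n + 3 → f k = f' k := by
    intro m
    induction m with
    | zero => intro k hk; rw [hf.out k (by omega), hf'.out k (by omega)]
    | succ m ih =>
      intro k hk
      cases k with
      | zero => rw [hf.zero, hf'.zero]
      | succ k =>
        refine mul_right_cancel₀ (hg.pos (k + 1) (by omega) (by omega)).ne' ?_
        linear_combination h k (by omega) - h' k (by omega) + g k * ih (k + 2) (by omega)
  funext k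
  rcases le_or_gt k (n + 3) with hk | hk
  · exact key (n + 3 - k) k (by omega)
  · rw [hf.out k hk.le, hf'.out k hk.le]

noncomputable section

/-- The next row. -/
def stepRow {n : ℕ} (f : Row n) : Row n :=
  ⟨(exists_next f.2).choose, (exists_next f.2).choose_spec.1⟩

theorem isNext_stepRow {n : ℕ} (f : Row n) : IsNext n f.1 (stepRow f).1 :=
  (exists_next f.2).choose_spec.2

/-- The step as a permutation. -/
def stepPerm (n : ℕ) : Equiv.Perm (Row n) :=
  Equiv.ofBijective stepRow (Finite.injective_iff_bijective.1 fun f f' e =>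
    Subtype.ext (prev_unique f.2 f'.2 (stepRow f).2 (isNext_stepRow f) (e ▸ isNext_stepRow f')))

/-- The frieze of a row. -/
def friezeOfRow {n : ℕ} (f : Row n) (i j : ℤ) : ℤ := ((stepPerm n ^ i) f).1 (j - i).toNat

theorem friezeOfRow_natCast {n : ℕ} (f : Row n) (i : ℤ) (k : ℕ) :
    friezeOfRow f i (i + k) = ((stepPerm n ^ i) f).1 k := by
  simp [friezeOfRow]

theorem isFrieze_friezeOfRow {n : ℕ} (f : Row n) : IsFrieze n (friezeOfRow f) := by
  constructor
  · rintro i j h
    rcases h with h | h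
    · rw [friezeOfRow, Int.toNat_of_nonpos (by omega)]
      exact ((stepPerm n ^ i) f).2.zero
    · exact ((stepPerm n ^ i) f).2.out _ (by omega)
  · intro i
    rw [show i + 1 = i + ((1 : ℕ) : ℤ) by norm_num, friezeOfRow_natCast]
    exact ((stepPerm n ^ i) f).2.one
  · intro i
    rw [show i + n + 2 = i + ((n + 2 : ℕ) : ℤ) by push_cast; ring, friezeOfRow_natCast]
    exact ((stepPerm n ^ i) f).2.top
  · intro i j h₁ h₂
    exact ((stepPerm n ^ i) f).2.pos _ (by omega) (by omega)
  · intro i j h₁ h₂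
    obtain ⟨k, rfl⟩ : ∃ k : ℕ, j = i + ((k + 1 : ℕ) : ℤ) := ⟨(j - i - 1).toNat, by omega⟩
    rw [friezeOfRow_natCast,
      show i + ((k + 1 : ℕ) : ℤ) + 1 = i + 1 + ((k + 1 : ℕ) : ℤ) by ring, friezeOfRow_natCast,
      show friezeOfRow f (i + 1) (i + ((k + 1 : ℕ) : ℤ)) = ((stepPerm n ^ (i + 1)) f).1 k by
        rw [← friezeOfRow_natCast]; congr 1; push_cast; ring,
      show friezeOfRow f i (i + 1 + ((k + 1 : ℕ) : ℤ)) = ((stepPerm n ^ i) f).1 (k + 2) by
        rw [← friezeOfRow_natCast]; congr 1; push_cast; ring]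
    rw [show i + 1 = 1 + i by ring, zpow_one_add, Equiv.Perm.mul_apply]
    exact isNext_stepRow ((stepPerm n ^ i) f) k (by omega)

theorem isRow_of_frieze {n : ℕ} {F : ℤ → ℤ → ℤ} (hF : IsFrieze n F) (i : ℤ) :
    IsRow n fun k => F i (i + k) := by
  refine ⟨hF.out _ _ (Or.inl (by simp)), by simpa using hF.bottom i, ?_,
    fun k hk => hF.out _ _ (Or.inr (by omega)), fun k h₁ h₂ => hF.pos _ _ (by omega) (by omega),
    fun k hk => ?_⟩
  · rw [← hF.top i]; congr 1; push_cast; ring
  push_cast
  rcases eq_or_lt_of_le hk with rfl | hk'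
  · rw [show i + (((n + 1 : ℕ) : ℤ) + 1) = i + n + 2 by push_cast; ring, hF.top]
    exact one_dvd _
  rcases Nat.eq_zero_or_pos k with rfl | hk0
  · simp [hF.bottom]
  have d₁ := hF.diamond i (i + k) (by omega) (by omega)
  have d₂ := hF.diamond i (i + k + 1) (by omega) (by omega)
  rw [show i + ((k : ℤ) + 1) = i + k + 1 by ring, show i + ((k : ℤ) + 2) = i + k + 1 + 1 by ring]
  exact IsCoprime.dvd_of_dvd_mul_right (⟨F (i + 1) (i + k + 1 + 1), -F i (i + k + 1 + 1), by
      linear_combination d₂⟩ : IsCoprime (F i (i + k + 1)) (F (i + 1) (i + k + 1)))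
    ⟨F (i + 1) (i + k) + F (i + 1) (i + k + 1 + 1), by linear_combination d₁ - d₂⟩

/-- Row `i` of a frieze. -/
def rowOf {n : ℕ} {F : ℤ → ℤ → ℤ} (hF : IsFrieze n F) (i : ℤ) : Row n :=
  ⟨fun k => F i (i + k), isRow_of_frieze hF i⟩

theorem rowOf_succ {n : ℕ} {F : ℤ → ℤ → ℤ} (hF : IsFrieze n F) (i : ℤ) :
    rowOf hF (i + 1) = stepPerm n (rowOf hF i) := by
  refine Subtype.ext (next_unique (rowOf hF i).2 (rowOf hF (i + 1)).2 (stepRow _).2
    (fun k hk => ?_) (isNext_stepRow _))
  have d := hF.diamond i (i + (k + 1 : ℕ)) (by omega) (by omega)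
  simp only [rowOf]
  push_cast at d ⊢
  rw [show i + 1 + ((k : ℤ) + 1) = i + ((k : ℤ) + 1) + 1 by ring,
    show i + ((k : ℤ) + 2) = i + ((k : ℤ) + 1) + 1 by ring,
    show i + 1 + (k : ℤ) = i + ((k : ℤ) + 1) by ring]
  exact d

theorem rowOf_eq {n : ℕ} {F : ℤ → ℤ → ℤ} (hF : IsFrieze n F) (i : ℤ) :
    rowOf hF i = (stepPerm n ^ i) (rowOf hF 0) := by
  induction i using Int.induction_on with
  | zero => rfl
  | succ i ih =>
    rw [rowOf_succ hF i, ih, add_comm (i : ℤ) 1, zpow_one_add, Equiv.Perm.mul_apply]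
  | pred i ih =>
    apply (stepPerm n).injective
    rw [← rowOf_succ hF, ← Equiv.Perm.mul_apply, ← zpow_one_add,
      show 1 + (-(i : ℤ) - 1) = -(i : ℤ) by ring, sub_add_cancel]
    exact ih

theorem eq_friezeOfRow {n : ℕ} {F : ℤ → ℤ → ℤ} (hF : IsFrieze n F) :
    F = friezeOfRow (rowOf hF 0) := by
  funext i j
  rcases le_or_gt i j with h | h
  · obtain ⟨k, rfl⟩ : ∃ k : ℕ, j = i + k := ⟨(j - i).toNat, by omega⟩
    rw [friezeOfRow_natCast, ← rowOf_eq hF i]
    rfl
  · rw [hF.out i j (Or.inl h.le), (isFrieze_friezeOfRow _).out i j (Or.inl h.le)]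

/-- Friezes are rows. -/
def friezeEquiv (n : ℕ) : {F // IsFrieze n F} ≃ Row n where
  toFun F := rowOf F.2 0
  invFun f := ⟨friezeOfRow f, isFrieze_friezeOfRow f⟩
  left_inv F := Subtype.ext (eq_friezeOfRow F.2).symm
  right_inv f := Subtype.ext (funext fun k => by
    simp only [rowOf, zero_add, friezeOfRow, sub_zero, Int.toNat_natCast, zpow_zero,
      Equiv.Perm.one_apply])

theorem card_friezes (n : ℕ) : Nat.card {F // IsFrieze n F} = catalan (n + 1) := by
  rw [Nat.card_congr ((friezeEquiv n).trans (rowEquiv n)), Nat.card_coe_set_eq, card_diagonals]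

end

end FA.Frieze
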